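import Mathlib

/-!
# A counting lemma for `p`-th powers in a finitely generated commutative group

If a commutative group `E` is generated by `n` elements and `φ : E → V` is a homomorphism to a
`ZMod p`-vector space such that `n` elements of `E` have linearly independent images, then the
kernel of `φ` consists exactly of the `p`-th powers.
-/

set_option autoImplicit false

namespace Fermat.Agent.Lib.KummerLemma

open Finset

section counting

variable {E : Type*} [CommGroup E] {V : Type*} [AddCommGroup V] (p : ℕ) [hp : Fact p.Prime]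
  [Module (ZMod p) V] {n : ℕ}

/-- The image under an additive-valued homomorphism of a product of powers. -/
theorem map_prod_pow_val (φ : E →* Multiplicative V) (x : Fin n → E) (e : Fin n → ZMod p) :
    Multiplicative.toAdd (φ (∏ i, x i ^ (e i).val)) =
      ∑ i, e i • Multiplicative.toAdd (φ (x i)) := by
  rw [map_prod, toAdd_prod]
  refine Finset.sum_congr rfl fun i _ => ?_
  rw [map_pow, toAdd_pow, ← Nat.cast_smul_eq_nsmul (ZMod p), ZMod.natCast_val, ZMod.cast_id', id]

theorem map_pow_prime_eq_one (φ : E →* Multiplicative V) (w : E) : φ (w ^ p) = 1 := by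
  apply Multiplicative.toAdd.injective
  rw [map_pow, toAdd_pow, ← Nat.cast_smul_eq_nsmul (ZMod p), ZMod.natCast_self, zero_smul, toAdd_one]

/-- **Counting lemma.** -/
theorem exists_eq_pow_of_map_eq_one
    (g : Fin n → E) (hg : ∀ u : E, ∃ e : Fin n → ℤ, u = ∏ i, g i ^ e i)
    (φ : E →* Multiplicative V) (x : Fin n → E)
    (hx : LinearIndependent (ZMod p) (fun i => Multiplicative.toAdd (φ (x i))))
    (u : E) (hu : φ u = 1) : ∃ w : E, u = w ^ p := by
  classical
  have hp0 : p ≠ 0 := hp.out.ne_zero
  have : NeZero p := ⟨hp0⟩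
  set H : Subgroup E := (powMonoidHom p : E →* E).range with hH
  -- the surjection coming from the generators
  let s : (Fin n → ZMod p) → E ⧸ H := fun e => QuotientGroup.mk (∏ i, g i ^ (e i).val)
  let f : (Fin n → ZMod p) → E ⧸ H := fun e => QuotientGroup.mk (∏ i, x i ^ (e i).val)
  have hs : Function.Surjective s := by
    intro q
    obtain ⟨v, rfl⟩ := QuotientGroup.mk_surjective q
    obtain ⟨e, rfl⟩ := hg v
    refine ⟨fun i => (e i : ZMod p), ?_⟩
    rw [QuotientGroup.eq]
    refine ⟨∏ i, g i ^ ((e i - (((e i : ZMod p)).val : ℤ)) / p), ?_⟩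
    rw [powMonoidHom_apply, ← Finset.prod_pow, ← Finset.prod_inv_distrib, ← Finset.prod_mul_distrib]
    refine Finset.prod_congr rfl fun i _ => ?_
    have hdvd : (p : ℤ) ∣ e i - (((e i : ZMod p)).val : ℤ) := by
      rw [← ZMod.intCast_zmod_eq_zero_iff_dvd]
      push_cast
      rw [ZMod.natCast_val, ZMod.cast_id', id, sub_self]
    obtain ⟨k, hk⟩ := hdvd
    rw [hk, Int.mul_ediv_cancel_left _ (by exact_mod_cast hp0), ← zpow_natCast, ← zpow_mul,
      ← zpow_natCast, ← zpow_neg, ← zpow_add, mul_comm k, ← hk]
    congr 1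
    ring
  have hfin : Finite (E ⧸ H) := Finite.of_surjective s hs
  have hcard : Nat.card (E ⧸ H) ≤ Nat.card (Fin n → ZMod p) := Nat.card_le_card_of_surjective s hs
  have hf : Function.Injective f := by
    intro e e' hee
    rw [QuotientGroup.eq] at hee
    obtain ⟨w, hw⟩ := hee
    rw [powMonoidHom_apply] at hw
    have h1 : φ (∏ i, x i ^ (e i).val) = φ (∏ i, x i ^ (e' i).val) := by
      have h2 := congrArg φ hw
      rw [map_pow_prime_eq_one p φ w, map_mul, map_inv] at h2
      exact inv_mul_eq_one.mp h2.symm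
    have h3 := congrArg Multiplicative.toAdd h1
    rw [map_prod_pow_val, map_prod_pow_val] at h3
    have h4 : ∑ i, (e i - e' i) • Multiplicative.toAdd (φ (x i)) = 0 := by
      simp only [sub_smul, Finset.sum_sub_distrib, h3, sub_self]
    have h5 := Fintype.linearIndependent_iff.mp hx (fun i => e i - e' i) h4
    funext i
    exact sub_eq_zero.mp (h5 i)
  have hbij := hf.bijective_of_nat_card_le hcard
  obtain ⟨e, he⟩ := hbij.2 (QuotientGroup.mk u)
  rw [QuotientGroup.eq] at he
  obtain ⟨w, hw⟩ := he
  rw [powMonoidHom_apply] at hw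
  have h1 : φ (∏ i, x i ^ (e i).val) = 1 := by
    have h2 := congrArg φ hw
    rw [map_pow_prime_eq_one p φ w, map_mul, map_inv, hu, mul_one] at h2
    exact inv_eq_one.mp h2.symm
  have h3 := congrArg Multiplicative.toAdd h1
  rw [map_prod_pow_val, toAdd_one] at h3
  have h5 := Fintype.linearIndependent_iff.mp hx e h3
  refine ⟨w, ?_⟩
  rw [hw]
  simp [h5]

end counting

end Fermat.Agent.Lib.KummerLemma
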