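import Mathlib

/-!
# The logarithmic derivative on units of the `p`-th cyclotomic ring, modulo `p`

We build a ring homomorphism `Psi : 𝓞 K → DualNumber (F_p[t]/(t^(p-2)))`, `ζ ↦ 1 + t + ε`, and the
induced homomorphism `dlog : (𝓞 K)ˣ → (F_p[t]/(t^(p-2)), +)`.
-/

set_option autoImplicit false

namespace Fermat.Agent.Lib.KummerLemma

open Polynomial NumberField TrivSqZeroExt

section dual

variable (R : Type*) [CommRing R]

/-- The logarithmic derivative `a + b ε ↦ b / a` on the units of the dual numbers. -/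
noncomputable def dlogDual : (DualNumber R)ˣ →* Multiplicative R where
  toFun u := Multiplicative.ofAdd
    (snd (u : DualNumber R) * fst ((u⁻¹ : (DualNumber R)ˣ) : DualNumber R))
  map_one' := by simp
  map_mul' u v := by
    rw [← ofAdd_add]
    congr 1
    have hu : fst (u : DualNumber R) * fst ((u⁻¹ : (DualNumber R)ˣ) : DualNumber R) = 1 := by
      rw [← fst_mul, Units.mul_inv, fst_one]
    have hv : fst (v : DualNumber R) * fst ((v⁻¹ : (DualNumber R)ˣ) : DualNumber R) = 1 := by
      rw [← fst_mul, Units.mul_inv, fst_one]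
    have huv : (u * v)⁻¹ = u⁻¹ * v⁻¹ := mul_inv u v
    rw [huv, Units.val_mul, Units.val_mul, snd_mul, fst_mul]
    simp only [smul_eq_mul, MulOpposite.smul_eq_mul_unop, MulOpposite.unop_op]
    linear_combination
      (snd (v : DualNumber R) * fst ((v⁻¹ : (DualNumber R)ˣ) : DualNumber R)) * hu +
      (snd (u : DualNumber R) * fst ((u⁻¹ : (DualNumber R)ˣ) : DualNumber R)) * hv

theorem toAdd_dlogDual_eq (u : (DualNumber R)ˣ) (D : R)
    (h : D * fst (u : DualNumber R) = snd (u : DualNumber R)) :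
    Multiplicative.toAdd (dlogDual R u) = D := by
  have hu : fst (u : DualNumber R) * fst ((u⁻¹ : (DualNumber R)ˣ) : DualNumber R) = 1 := by
    rw [← fst_mul, Units.mul_inv, fst_one]
  change snd (u : DualNumber R) * fst ((u⁻¹ : (DualNumber R)ˣ) : DualNumber R) = D
  rw [← h]
  linear_combination D * hu

end dual

section trunc

variable (p : ℕ)

/-- The truncated polynomial ring `F_p[t]/(t^(p-2))`. -/
abbrev TruncRing : Type := AdjoinRoot ((X : (ZMod p)[X]) ^ (p - 2))

/-- The class of `t`. -/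
noncomputable def tt : TruncRing p := AdjoinRoot.root _

theorem tt_pow : tt p ^ (p - 2) = 0 := by
  have h := AdjoinRoot.eval₂_root ((X : (ZMod p)[X]) ^ (p - 2))
  simpa [tt] using h

theorem natCast_self_truncRing : (p : TruncRing p) = 0 := by
  rw [← map_natCast (algebraMap (ZMod p) (TruncRing p)), ZMod.natCast_self, map_zero]

theorem natCast_self_dual : (p : DualNumber (TruncRing p)) = 0 := by
  rw [← map_natCast (algebraMap (ZMod p) (DualNumber (TruncRing p))), ZMod.natCast_self, map_zero]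

/-- The image of `ζ`. -/
noncomputable def tau : DualNumber (TruncRing p) := inl (1 + tt p) + inr 1

@[simp] theorem fst_tau : fst (tau p) = 1 + tt p := by simp [tau]

@[simp] theorem snd_tau : snd (tau p) = 1 := by simp [tau]

theorem tau_sub_one_pow (h2 : 2 < p) : (tau p - 1) ^ (p - 1) = 0 := by
  have h1 : tt p ^ (p - 1) = 0 := by
    have : p - 1 = (p - 2) + 1 := by omega
    rw [this, pow_succ, tt_pow, zero_mul]
  apply TrivSqZeroExt.ext
  · rw [fst_pow, fst_sub, fst_tau, fst_one, fst_zero, add_sub_cancel_left, h1]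
  · rw [snd_pow, fst_sub, fst_tau, fst_one, add_sub_cancel_left, snd_zero]
    have : (p - 1).pred = p - 2 := by
      rw [Nat.pred_eq_sub_one]; omega
    rw [this, tt_pow, zero_smul, smul_zero]

theorem aeval_tau [hp : Fact p.Prime] (hp2 : p ≠ 2) : aeval (tau p) (cyclotomic p ℤ) = 0 := by
  have h2' : 2 < p := lt_of_le_of_ne hp.out.two_le (Ne.symm hp2)
  have h1 : cyclotomic p (ZMod p) = (X - 1) ^ (p - 1) := by
    have h := cyclotomic_mul_prime_pow_eq (ZMod p) (p := p) (m := 1)
      (by simpa using hp.out.one_lt.ne') (k := 1) one_pos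
    simpa using h
  have h2 : aeval (tau p) (cyclotomic p ℤ) = aeval (tau p) (cyclotomic p (ZMod p)) := by
    rw [← map_cyclotomic p (Int.castRingHom (ZMod p)), aeval_def, aeval_def, eval₂_map]
    congr 1
  rw [h2, h1]
  simpa using tau_sub_one_pow p h2'

end trunc

section Psi

variable {p : ℕ} [hp : Fact p.Prime] {K : Type*} [Field K] [NumberField K]
  [IsCyclotomicExtension {p} ℚ K] {ζ : K}

/-- The ring homomorphism `𝓞 K → DualNumber (F_p[t]/(t^(p-2)))` sending `ζ` to `1 + t + ε`. -/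
noncomputable def Psi (hζ : IsPrimitiveRoot ζ p) (hp2 : p ≠ 2) :
    𝓞 K →ₐ[ℤ] DualNumber (TruncRing p) :=
  hζ.integralPowerBasis.lift (tau p) (by
    rw [hζ.integralPowerBasis_gen]
    have h : minpoly ℤ hζ.toInteger = cyclotomic p ℤ := by
      have h1 := cyclotomic_eq_minpoly hζ hp.out.pos
      rw [h1]
      exact Eq.symm <| minpoly.algebraMap_eq (B' := K) (RingOfIntegers.coe_injective) hζ.toInteger
    rw [h]
    exact aeval_tau p hp2)

theorem Psi_zeta (hζ : IsPrimitiveRoot ζ p) (hp2 : p ≠ 2) : Psi hζ hp2 hζ.toInteger = tau p := by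
  have h : Psi hζ hp2 hζ.integralPowerBasis.gen = tau p :=
    hζ.integralPowerBasis.lift_gen (tau p) _
  rwa [hζ.integralPowerBasis_gen] at h

/-- The logarithmic derivative on units of `𝓞 K`, with values in `F_p[t]/(t^(p-2))`. -/
noncomputable def dlog (hζ : IsPrimitiveRoot ζ p) (hp2 : p ≠ 2) :
    (𝓞 K)ˣ →* Multiplicative (TruncRing p) :=
  (dlogDual (TruncRing p)).comp (Units.map (Psi hζ hp2 : 𝓞 K →* DualNumber (TruncRing p)))

theorem toAdd_dlog_eq (hζ : IsPrimitiveRoot ζ p) (hp2 : p ≠ 2) (u : (𝓞 K)ˣ) (D : TruncRing p)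
    (h : D * fst (Psi hζ hp2 (u : 𝓞 K)) = snd (Psi hζ hp2 (u : 𝓞 K))) :
    Multiplicative.toAdd (dlog hζ hp2 u) = D :=
  toAdd_dlogDual_eq _ _ D h

/-- A unit congruent to a rational integer modulo `p` has trivial logarithmic derivative. -/
theorem dlog_eq_one_of_dvd (hζ : IsPrimitiveRoot ζ p) (hp2 : p ≠ 2) (u : (𝓞 K)ˣ) (n : ℤ)
    (h : (p : 𝓞 K) ∣ (u : 𝓞 K) - (n : 𝓞 K)) : dlog hζ hp2 u = 1 := by
  apply Multiplicative.toAdd.injective
  rw [toAdd_one]
  apply toAdd_dlog_eq
  obtain ⟨w, hw⟩ := h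
  have hu : (u : 𝓞 K) = n + p * w := by rw [← hw]; ring
  rw [hu, map_add, map_mul, map_natCast, map_intCast, natCast_self_dual, zero_mul, zero_mul,
    add_zero]
  simp

end Psi

end Fermat.Agent.Lib.KummerLemma
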