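import Mathlib

/-!
# Generators of the unit group of a cyclotomic field (from Dirichlet's unit theorem)
-/

set_option autoImplicit false

namespace Fermat.Agent.Lib.KummerLemma

open NumberField NumberField.Units

/-- The unit group of a number field is generated by `rank K + 1` elements. -/
theorem exists_generators_rank (K : Type*) [Field K] [NumberField K] :
    ∃ g : Fin (rank K + 1) → (𝓞 K)ˣ, ∀ u : (𝓞 K)ˣ, ∃ e : Fin (rank K + 1) → ℤ,
      u = ∏ i, g i ^ e i := by
  obtain ⟨t, ht⟩ := IsCyclic.exists_generator (α := torsion K)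
  refine ⟨Fin.cons (t : (𝓞 K)ˣ) (fundSystem K), fun u => ?_⟩
  obtain ⟨⟨τ, e⟩, hu, -⟩ := exist_unique_eq_mul_prod K u
  obtain ⟨k, hk⟩ := Subgroup.mem_zpowers_iff.mp (ht τ)
  refine ⟨Fin.cons k e, ?_⟩
  rw [Fin.prod_univ_succ]
  simp only [Fin.cons_zero, Fin.cons_succ]
  rw [hu]
  congr 1
  simp only
  rw [← hk]
  simp

theorem rank_add_one_eq {p : ℕ} [hp : Fact p.Prime] (hp2 : p ≠ 2) (K : Type*) [Field K]
    [NumberField K] [IsCyclotomicExtension {p} ℚ K] : rank K + 1 = (p - 1) / 2 := by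
  have h2 : 2 < p := lt_of_le_of_ne hp.out.two_le (Ne.symm hp2)
  have h1 : Fintype.card (InfinitePlace K) = (p - 1) / 2 := by
    rw [InfinitePlace.card_eq_nrRealPlaces_add_nrComplexPlaces,
      IsCyclotomicExtension.Rat.nrRealPlaces_eq_zero (n := p) K h2,
      IsCyclotomicExtension.Rat.nrComplexPlaces_eq_totient_div_two p K,
      Nat.totient_prime hp.out, zero_add]
  have h3 : 0 < Fintype.card (InfinitePlace K) := Fintype.card_pos
  rw [rank]
  omega

/-- The unit group of the `p`-th cyclotomic field is generated by `(p - 1) / 2` elements. -/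
theorem exists_generators {p : ℕ} [hp : Fact p.Prime] (hp2 : p ≠ 2) (K : Type*) [Field K]
    [NumberField K] [IsCyclotomicExtension {p} ℚ K] {n : ℕ} (hn : n = (p - 1) / 2) :
    ∃ g : Fin n → (𝓞 K)ˣ, ∀ u : (𝓞 K)ˣ, ∃ e : Fin n → ℤ, u = ∏ i, g i ^ e i := by
  have h := rank_add_one_eq hp2 K
  rw [← hn] at h
  subst h
  exact exists_generators_rank K

end Fermat.Agent.Lib.KummerLemma
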