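import Fermat.Agent.Lib.KummerDefs
import Fermat.Agent.Lib.KummerLemma.Counting
import Fermat.Agent.Lib.KummerLemma.Generators
import Fermat.Agent.Lib.KummerLemma.DLog

/-!
# Kummer's lemma from an explicit finite certificate
-/

set_option autoImplicit false

namespace Fermat.Agent.Lib.KummerLemma

open Polynomial NumberField TrivSqZeroExt Finset

variable {p : ℕ} [hp : Fact p.Prime] {K : Type*} [Field K] [NumberField K]
  [IsCyclotomicExtension {p} ℚ K] {ζ : K}

/-- Kummer's lemma, from `(p - 1) / 2` units whose logarithmic derivatives are independent. -/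
theorem kummerLemma_of_linearIndependent (hζ : IsPrimitiveRoot ζ p) (hp2 : p ≠ 2) {n : ℕ}
    (hn : n = (p - 1) / 2) (x : Fin n → (𝓞 K)ˣ) (D : Fin n → TruncRing p)
    (hD : ∀ i, D i * fst (Psi hζ hp2 (x i : 𝓞 K)) = snd (Psi hζ hp2 (x i : 𝓞 K)))
    (hlin : LinearIndependent (ZMod p) D) : KummerDefs.KummerLemma p K := by
  rintro u ⟨m, hm⟩
  obtain ⟨g, hg⟩ := exists_generators hp2 K hn
  have h : (fun i => Multiplicative.toAdd (dlog hζ hp2 (x i))) = D :=
    funext fun i => toAdd_dlog_eq hζ hp2 (x i) (D i) (hD i)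
  exact exists_eq_pow_of_map_eq_one p g hg (dlog hζ hp2) x (h ▸ hlin) u
    (dlog_eq_one_of_dvd hζ hp2 u m hm)

/-- The cyclotomic unit `1 + ζ + ⋯ + ζ ^ (j - 1)`. -/
noncomputable def cycUnit (hζ : IsPrimitiveRoot ζ p) (j : ℕ) (h0 : 0 < j) (hj : j < p) : (𝓞 K)ˣ :=
  (hζ.toInteger_isPrimitiveRoot.geom_sum_isUnit hp.out.two_le
    (Nat.coprime_of_lt_prime h0.ne' hj hp.out).symm).unit

omit [NumberField K] [IsCyclotomicExtension {p} ℚ K] in
theorem coe_cycUnit (hζ : IsPrimitiveRoot ζ p) (j : ℕ) (h0 : 0 < j) (hj : j < p) :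
    (cycUnit hζ j h0 hj : 𝓞 K) = ∑ i ∈ range j, hζ.toInteger ^ i :=
  IsUnit.unit_spec _

theorem fst_Psi_geom (hζ : IsPrimitiveRoot ζ p) (hp2 : p ≠ 2) (j : ℕ) :
    fst (Psi hζ hp2 (∑ i ∈ range j, hζ.toInteger ^ i)) = ∑ i ∈ range j, (1 + tt p) ^ i := by
  rw [map_sum, fst_sum]
  refine Finset.sum_congr rfl fun i _ => ?_
  rw [map_pow, Psi_zeta, fst_pow, fst_tau]

theorem snd_Psi_geom (hζ : IsPrimitiveRoot ζ p) (hp2 : p ≠ 2) (j : ℕ) :
    snd (Psi hζ hp2 (∑ i ∈ range j, hζ.toInteger ^ i)) =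
      ∑ i ∈ range j, (i : TruncRing p) * (1 + tt p) ^ (i - 1) := by
  rw [map_sum, snd_sum]
  refine Finset.sum_congr rfl fun i _ => ?_
  rw [map_pow, Psi_zeta, snd_pow, fst_tau, snd_tau, Nat.pred_eq_sub_one, smul_eq_mul, mul_one,
    nsmul_eq_mul]

theorem linearIndependent_tt_pow {m : ℕ} (hm : m ≤ p - 2) :
    LinearIndependent (ZMod p) (fun j : Fin m => tt p ^ (j : ℕ)) := by
  have hmonic : ((X : (ZMod p)[X]) ^ (p - 2)).Monic := monic_X_pow _
  let pb := AdjoinRoot.powerBasis' hmonic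
  have hdim : pb.dim = p - 2 := by
    simp [pb, AdjoinRoot.powerBasis'_dim]
  have h1 := pb.basis.linearIndependent
  have hm' : m ≤ pb.dim := hdim.symm ▸ hm
  have h2 := h1.comp (Fin.castLE hm') (Fin.castLE_injective _)
  have h3 : (fun j : Fin m => tt p ^ (j : ℕ)) = pb.basis ∘ Fin.castLE hm' := by
    funext j
    simp [pb, tt, PowerBasis.coe_basis]
  rw [h3]
  exact h2

theorem linearIndependent_of_rightInverse {n m : ℕ} (hm : m ≤ p - 2)
    (M : Matrix (Fin n) (Fin m) (ZMod p)) (B : Matrix (Fin m) (Fin n) (ZMod p)) (hMB : M * B = 1) :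
    LinearIndependent (ZMod p) (fun i => ∑ j, M i j • tt p ^ (j : ℕ)) := by
  rw [Fintype.linearIndependent_iff]
  intro e he
  have h1 : ∑ j, (∑ i, e i * M i j) • tt p ^ (j : ℕ) = 0 := by
    rw [← he]
    simp only [Finset.smul_sum, Finset.sum_smul, smul_smul]
    exact Finset.sum_comm
  have h2 := Fintype.linearIndependent_iff.mp (linearIndependent_tt_pow (p := p) hm) _ h1
  have h3 : Matrix.vecMul e M = 0 := by
    funext j
    simpa [Matrix.vecMul, dotProduct] using h2 j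
  have h4 : Matrix.vecMul e (M * B) = 0 := by
    rw [← Matrix.vecMul_vecMul, h3, Matrix.zero_vecMul]
  rw [hMB, Matrix.vecMul_one] at h4
  intro i
  exact congrFun h4 i

/-- **Kummer's lemma from a certificate**: `M` is the matrix of the coefficients of the logarithmic
derivatives of the units `1 + ζ + ⋯ + ζ ^ (i + 1)`, `i < (p - 1) / 2`, and `B` is a right inverse
of `M`. -/
theorem kummerLemma_of_cert (hp2 : p ≠ 2) {n m : ℕ} (hn : n = (p - 1) / 2) (hm : m ≤ p - 2)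
    (M : Matrix (Fin n) (Fin m) (ZMod p)) (B : Matrix (Fin m) (Fin n) (ZMod p)) (hMB : M * B = 1)
    (hD : ∀ i : Fin n, (∑ j, M i j • tt p ^ (j : ℕ)) * (∑ k ∈ range ((i : ℕ) + 2), (1 + tt p) ^ k) =
      ∑ k ∈ range ((i : ℕ) + 2), (k : TruncRing p) * (1 + tt p) ^ (k - 1)) :
    KummerDefs.KummerLemma p K := by
  have hζ := IsCyclotomicExtension.zeta_spec p ℚ K
  have h2 : 2 < p := lt_of_le_of_ne hp.out.two_le (Ne.symm hp2)
  refine kummerLemma_of_linearIndependent hζ hp2 hn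
    (fun i => cycUnit hζ ((i : ℕ) + 2) (by omega) (by have := i.2; omega)) _ (fun i => ?_)
    (linearIndependent_of_rightInverse hm M B hMB)
  rw [coe_cycUnit, fst_Psi_geom, snd_Psi_geom]
  exact hD i

end Fermat.Agent.Lib.KummerLemma
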