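import Fermat.Agent.Lib.KummerLemma.Main

/-!
# Kummer's lemma for `p = 11` (certificate produced by a script)
-/

set_option autoImplicit false

namespace Fermat.Agent.Lib.KummerLemma

open Polynomial NumberField Finset

instance fact_prime_eleven : Fact (Nat.Prime 11) := ⟨by norm_num⟩

theorem kummerLemma_eleven (K : Type*) [Field K] [NumberField K] [IsCyclotomicExtension {11} ℚ K] :
    KummerDefs.KummerLemma 11 K := by
  have ht : tt 11 ^ 9 = 0 := tt_pow 11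
  have hz : (11 : TruncRing 11) = 0 := by exact_mod_cast natCast_self_truncRing 11
  refine kummerLemma_of_cert (p := 11) (by norm_num) (n := 5) (m := 9) (by norm_num)
    (by norm_num)
    !![6, 8, 7, 2, 10, 6, 8, 7, 2; 1, 7, 0, 5, 6, 7, 2, 3, 0; 7, 8, 1, 8, 7, 6, 4, 0, 0; 2, 0, 10, 3, 0, 6, 5, 6, 5; 8, 5, 5, 8, 6, 0, 0, 0, 0]
    !![6, 7, 0, 6, 7; 8, 7, 4, 0, 2; 0, 0, 0, 0, 0; 0, 1, 3, 5, 7; 0, 0, 0, 0, 0; 8, 5, 0, 1, 0; 0, 0, 0, 0, 0; 1, 5, 4, 2, 7; 0, 0, 0, 0, 0]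
    (by decide) ?_
  intro i
  fin_cases i
  · simp [Fin.sum_univ_succ, Finset.sum_range_succ, Algebra.smul_def, map_ofNat]
    linear_combination ((2)) * ht + ((1) + (2)*tt 11 + (2)*tt 11^2 + (1)*tt 11^3 + (2)*tt 11^4 + (2)*tt 11^5 + (2)*tt 11^6 + (2)*tt 11^7 + (1)*tt 11^8) * hz
  · simp [Fin.sum_univ_succ, Finset.sum_range_succ, Algebra.smul_def, map_ofNat]
    linear_combination ((3)) * ht + ((2)*tt 11 + (2)*tt 11^2 + (2)*tt 11^3 + (3)*tt 11^4 + (4)*tt 11^5 + (3)*tt 11^6 + (2)*tt 11^7 + (1)*tt 11^8) * hz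
  · simp [Fin.sum_univ_succ, Finset.sum_range_succ, Algebra.smul_def, map_ofNat]
    linear_combination ((4)) * ht + ((2) + (6)*tt 11 + (7)*tt 11^2 + (7)*tt 11^3 + (8)*tt 11^4 + (9)*tt 11^5 + (8)*tt 11^6 + (5)*tt 11^7 + (2)*tt 11^8) * hz
  · simp [Fin.sum_univ_succ, Finset.sum_range_succ, Algebra.smul_def, map_ofNat]
    linear_combination ((141) + (85)*tt 11 + (31)*tt 11^2 + (5)*tt 11^3) * ht + ((5)*tt 11^2 + (11)*tt 11^3 + (12)*tt 11^4 + (10)*tt 11^5 + (10)*tt 11^6 + (13)*tt 11^7 + (15)*tt 11^8) * hz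
  · simp [Fin.sum_univ_succ, Finset.sum_range_succ, Algebra.smul_def, map_ofNat]
    linear_combination ((6)) * ht + ((3) + (10)*tt 11 + (20)*tt 11^2 + (29)*tt 11^3 + (34)*tt 11^4 + (33)*tt 11^5 + (25)*tt 11^6 + (13)*tt 11^7 + (4)*tt 11^8) * hz

end Fermat.Agent.Lib.KummerLemma

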