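import Fermat.Agent.Lib.KummerLemma.Main

/-!
# Kummer's lemma for `p = 13` (certificate produced by a script)
-/

set_option autoImplicit false

namespace Fermat.Agent.Lib.KummerLemma

open Polynomial NumberField Finset

instance fact_prime_thirteen : Fact (Nat.Prime 13) := ⟨by norm_num⟩

theorem kummerLemma_thirteen (K : Type*) [Field K] [NumberField K] [IsCyclotomicExtension {13} ℚ K] :
    KummerDefs.KummerLemma 13 K := by
  have ht : tt 13 ^ 11 = 0 := tt_pow 13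
  have hz : (13 : TruncRing 13) = 0 := by exact_mod_cast natCast_self_truncRing 13
  refine kummerLemma_of_cert (p := 13) (by norm_num) (n := 6) (m := 11) (by norm_num)
    (by norm_num)
    !![7, 3, 5, 4, 11, 1, 6, 10, 8, 9, 2; 1, 4, 0, 3, 10, 2, 12, 9, 0, 10, 3; 8, 3, 11, 11, 1, 1, 11, 5, 4, 9, 4; 2, 0, 12, 6, 0, 2, 11, 4, 7, 3, 5; 9, 8, 3, 8, 9, 1, 6, 7, 6, 7, 6; 3, 1, 10, 1, 3, 7, 0, 0, 0, 0, 0]
    !![10, 12, 7, 4, 2, 2; 2, 12, 11, 2, 8, 6; 0, 0, 0, 0, 0, 0; 10, 2, 9, 2, 9, 6; 0, 0, 0, 0, 0, 0; 7, 4, 9, 7, 6, 5; 0, 0, 0, 0, 0, 0; 11, 0, 6, 1, 0, 1; 0, 0, 0, 0, 0, 0; 6, 7, 11, 5, 7, 8; 0, 0, 0, 0, 0, 0]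
    (by decide) ?_
  intro i
  fin_cases i
  · simp [Fin.sum_univ_succ, Finset.sum_range_succ, Algebra.smul_def, map_ofNat]
    linear_combination ((2)) * ht + ((1) + (1)*tt 13 + (1)*tt 13^2 + (1)*tt 13^3 + (2)*tt 13^4 + (1)*tt 13^5 + (1)*tt 13^6 + (2)*tt 13^7 + (2)*tt 13^8 + (2)*tt 13^9 + (1)*tt 13^10) * hz
  · simp [Fin.sum_univ_succ, Finset.sum_range_succ, Algebra.smul_def, map_ofNat]
    linear_combination ((19) + (3)*tt 13) * ht + ((1)*tt 13 + (1)*tt 13^2 + (1)*tt 13^3 + (3)*tt 13^4 + (3)*tt 13^5 + (4)*tt 13^6 + (5)*tt 13^7 + (3)*tt 13^8 + (3)*tt 13^9 + (3)*tt 13^10) * hz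
  · simp [Fin.sum_univ_succ, Finset.sum_range_succ, Algebra.smul_def, map_ofNat]
    linear_combination ((64) + (25)*tt 13 + (4)*tt 13^2) * ht + ((2) + (4)*tt 13 + (7)*tt 13^2 + (10)*tt 13^3 + (9)*tt 13^4 + (5)*tt 13^5 + (5)*tt 13^6 + (7)*tt 13^7 + (7)*tt 13^8 + (7)*tt 13^9 + (7)*tt 13^10) * hz
  · simp [Fin.sum_univ_succ, Finset.sum_range_succ, Algebra.smul_def, map_ofNat]
    linear_combination ((119) + (72)*tt 13 + (28)*tt 13^2 + (5)*tt 13^3) * ht + ((5)*tt 13^2 + (12)*tt 13^3 + (14)*tt 13^4 + (10)*tt 13^5 + (9)*tt 13^6 + (12)*tt 13^7 + (15)*tt 13^8 + (14)*tt 13^9 + (12)*tt 13^10) * hz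
  · simp [Fin.sum_univ_succ, Finset.sum_range_succ, Algebra.smul_def, map_ofNat]
    linear_combination ((368) + (268)*tt 13 + (138)*tt 13^2 + (43)*tt 13^3 + (6)*tt 13^4) * ht + ((3) + (11)*tt 13 + (21)*tt 13^2 + (28)*tt 13^3 + (31)*tt 13^4 + (31)*tt 13^5 + (29)*tt 13^6 + (26)*tt 13^7 + (26)*tt 13^8 + (29)*tt 13^9 + (31)*tt 13^10) * hz
  · simp [Fin.sum_univ_succ, Finset.sum_range_succ, Algebra.smul_def, map_ofNat]
    linear_combination ((7)) * ht + ((7)*tt 13^2 + (21)*tt 13^3 + (35)*tt 13^4 + (41)*tt 13^5 + (39)*tt 13^6 + (34)*tt 13^7 + (25)*tt 13^8 + (13)*tt 13^9 + (4)*tt 13^10) * hz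

end Fermat.Agent.Lib.KummerLemma

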