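import Fermat.Agent.Lib.KummerLemma.Main

/-!
# Kummer's lemma for `p = 5` (certificate produced by a script)
-/

set_option autoImplicit false

namespace Fermat.Agent.Lib.KummerLemma

open Polynomial NumberField Finset

instance fact_prime_five : Fact (Nat.Prime 5) := ⟨by norm_num⟩

theorem kummerLemma_five (K : Type*) [Field K] [NumberField K] [IsCyclotomicExtension {5} ℚ K] :
    KummerDefs.KummerLemma 5 K := by
  have ht : tt 5 ^ 3 = 0 := tt_pow 5
  have hz : (5 : TruncRing 5) = 0 := by exact_mod_cast natCast_self_truncRing 5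
  refine kummerLemma_of_cert (p := 5) (by norm_num) (n := 2) (m := 3) (by norm_num)
    (by norm_num)
    !![3, 1, 2; 1, 3, 0]
    !![1, 3; 3, 1; 0, 0]
    (by decide) ?_
  intro i
  fin_cases i
  · simp [Fin.sum_univ_succ, Finset.sum_range_succ, Algebra.smul_def, map_ofNat]
    linear_combination ((2)) * ht + ((1) + (1)*tt 5 + (1)*tt 5^2) * hz
  · simp [Fin.sum_univ_succ, Finset.sum_range_succ, Algebra.smul_def, map_ofNat]
    linear_combination ((3)) * ht + ((2)*tt 5 + (2)*tt 5^2) * hz

end Fermat.Agent.Lib.KummerLemma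

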