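import Fermat.Agent.Lib.KummerLemma.Main

/-!
# Kummer's lemma for `p = 7` (certificate produced by a script)
-/

set_option autoImplicit false

namespace Fermat.Agent.Lib.KummerLemma

open Polynomial NumberField Finset

instance fact_prime_seven : Fact (Nat.Prime 7) := ⟨by norm_num⟩

theorem kummerLemma_seven (K : Type*) [Field K] [NumberField K] [IsCyclotomicExtension {7} ℚ K] :
    KummerDefs.KummerLemma 7 K := by
  have ht : tt 7 ^ 5 = 0 := tt_pow 7
  have hz : (7 : TruncRing 7) = 0 := by exact_mod_cast natCast_self_truncRing 7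
  refine kummerLemma_of_cert (p := 7) (by norm_num) (n := 3) (m := 5) (by norm_num)
    (by norm_num)
    !![4, 5, 1, 3, 2; 1, 2, 0, 4, 3; 5, 5, 4, 0, 0]
    !![3, 3, 0; 4, 4, 3; 0, 0, 0; 6, 1, 2; 0, 0, 0]
    (by decide) ?_
  intro i
  fin_cases i
  · simp [Fin.sum_univ_succ, Finset.sum_range_succ, Algebra.smul_def, map_ofNat]
    linear_combination ((2)) * ht + ((1) + (2)*tt 7 + (1)*tt 7^2 + (1)*tt 7^3 + (1)*tt 7^4) * hz
  · simp [Fin.sum_univ_succ, Finset.sum_range_succ, Algebra.smul_def, map_ofNat]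
    linear_combination ((13) + (3)*tt 7) * ht + ((1)*tt 7 + (1)*tt 7^2 + (2)*tt 7^3 + (3)*tt 7^4) * hz
  · simp [Fin.sum_univ_succ, Finset.sum_range_succ, Algebra.smul_def, map_ofNat]
    linear_combination ((4)) * ht + ((2) + (6)*tt 7 + (9)*tt 7^2 + (7)*tt 7^3 + (3)*tt 7^4) * hz

end Fermat.Agent.Lib.KummerLemma

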